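/-
GATE-J / J4-FL (helper22): bridge between Frobenius elements of finite Galois number fields
`E ⊆ ℚ̄` and the prelude's `G_ℚ`-language (`ValuationSubring.IsFrobeniusAt`).
-/
import Mathlib
import Fermat.Prelude.Def_GaloisRep_Residual
import Fermat.Agent.Common_helper32.FrobeniusExists
import Fermat.Agent.S14.Reduction.ValAbove
import Fermat.Agent.S14.Artin

set_option autoImplicit false

open scoped NumberField
open Fermat.Agent.Common_helper32

namespace Fermat.Agent.GJ.FrobLift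

section Restrict

variable (E : IntermediateField ℚ Qb) [FiniteDimensional ℚ E] [IsGalois ℚ E]

/-- A finite subextension of `ℚ̄` is a number field. -/
instance numberField : NumberField E := ⟨⟩

/-- A Frobenius lift at a valuation subring `A` of `ℚ̄` restricts to an arithmetic Frobenius at the
prime of `E` below `A`. -/
theorem isArithFrobAt_restrict (A : ValuationSubring Qb) (ℓ : ℕ) (P : Ideal (𝓞 E))
    (hAP : ∀ x : 𝓞 E, x ∈ P ↔ ((x : E) : Qb) ∈ A.nonunits)
    (hcard : Nat.card (𝓞 ℚ ⧸ P.under (𝓞 ℚ)) = ℓ)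
    (τ : GQ) (hτ : A.IsFrobeniusAt τ ℓ) :
    IsArithFrobAt (𝓞 ℚ) (AlgEquiv.restrictNormalHom E τ) P := by
  intro x
  rw [MulSemiringAction.toAlgHom_apply, hcard, hAP]
  have hxA : ((x : E) : Qb) ∈ A := isIntegral_mem_valuationSubring A _ (by
    have := x.2
    exact (isIntegral_algebraMap_iff (algebraMap E Qb).injective).mpr this)
  have h := hτ.smul_residue_eq (IsLocalRing.residue A ⟨((x : E) : Qb), hxA⟩)
  rw [← IsLocalRing.ResidueField.residue_smul, ← map_pow, ← sub_eq_zero, ← map_sub,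
    IsLocalRing.residue_eq_zero_iff, A.valuation_lt_one_iff] at h
  rw [A.mem_nonunits_iff]
  have e : (((AlgEquiv.restrictNormalHom E τ • x - x ^ ℓ : 𝓞 E) : E) : Qb) =
      τ • ((x : E) : Qb) - ((x : E) : Qb) ^ ℓ := by
    push_cast
    congr 1
    exact AlgEquiv.restrictNormal_commutes τ E (x : E)
  rw [e]
  exact h

end Restrict

section Level

variable {M : Type} [Monoid M]

/-- A representation factoring through a finite level factors through `Gal(E/ℚ)` for a finite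
Galois `E ⊆ ℚ̄`. -/
theorem exists_galois_level (ρ : GQ →* M) (hρ : GaloisFactorsThroughFiniteLevel ρ) :
    ∃ (E : IntermediateField ℚ Qb) (_ : FiniteDimensional ℚ E) (_ : IsGalois ℚ E),
      ∀ σ σ' : GQ, AlgEquiv.restrictNormalHom E σ = AlgEquiv.restrictNormalHom E σ' →
        ρ σ = ρ σ' := by
  obtain ⟨L₀, hfin, h1⟩ := hρ
  have : FiniteDimensional ℚ L₀ := hfin
  have hn : Normal ℚ (IntermediateField.normalClosure ℚ L₀ Qb) := normalClosure.normal ℚ L₀ Qb
  refine ⟨IntermediateField.normalClosure ℚ L₀ Qb, inferInstance, ⟨⟩, fun σ σ' h => ?_⟩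
  have hfix : ∀ x ∈ L₀, (σ⁻¹ * σ') x = x := by
    intro x hx
    have hxE : x ∈ IntermediateField.normalClosure ℚ L₀ Qb :=
      IntermediateField.le_normalClosure L₀ hx
    set E := IntermediateField.normalClosure ℚ L₀ Qb with hE
    have h2 : ((AlgEquiv.restrictNormalHom E σ (⟨x, hxE⟩ : E) : E) : Qb) =
        ((AlgEquiv.restrictNormalHom E σ' (⟨x, hxE⟩ : E) : E) : Qb) := by rw [h]
    have e1 : ((AlgEquiv.restrictNormalHom E σ (⟨x, hxE⟩ : E) : E) : Qb) = σ x :=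
      AlgEquiv.restrictNormal_commutes σ E (⟨x, hxE⟩ : E)
    have e2 : ((AlgEquiv.restrictNormalHom E σ' (⟨x, hxE⟩ : E) : E) : Qb) = σ' x :=
      AlgEquiv.restrictNormal_commutes σ' E (⟨x, hxE⟩ : E)
    rw [e1, e2] at h2
    show σ⁻¹ (σ' x) = x
    rw [← h2]
    exact σ.symm_apply_apply x
  have h3 := h1 (σ⁻¹ * σ') hfix
  calc ρ σ = ρ σ * ρ (σ⁻¹ * σ') := by rw [h3, mul_one]
    _ = ρ σ' := by rw [← map_mul, mul_inv_cancel_left]

end Level

section Main

/-- Frobenius' existence theorem over `ℚ` (to be discharged by `GJ/Frob`, helper77): every element of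
a finite Galois group `Gal(E/ℚ)` generates the same cyclic group as some Frobenius element at an
unramified prime outside a given finite set. -/
def FrobGenQ : Prop :=
  ∀ (E : IntermediateField ℚ Qb) [FiniteDimensional ℚ E] [IsGalois ℚ E] (g : E ≃ₐ[ℚ] E)
    (B : Finset (Ideal (𝓞 ℚ))),
    ∃ (P : Ideal (𝓞 E)) (σ : E ≃ₐ[ℚ] E), P.IsPrime ∧ P ≠ ⊥ ∧ P.under (𝓞 ℚ) ∉ B ∧
      (Ideal.absNorm (P.under (𝓞 ℚ))).Prime ∧ P.inertia (E ≃ₐ[ℚ] E) = ⊥ ∧
      IsArithFrobAt (𝓞 ℚ) σ P ∧ Subgroup.zpowers σ = Subgroup.zpowers g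

variable {M : Type} [Monoid M]

/-- (FL1) Every value of a finite-level representation of `G_ℚ` is a power of the value at a
Frobenius lift at a prime outside a given finite set. -/
theorem exists_isFrobeniusAt_pow (hF : FrobGenQ) (ρ : GQ →* M)
    (hρ : GaloisFactorsThroughFiniteLevel ρ) (B : Finset ℕ) (g : GQ) :
    ∃ (ℓ : ℕ) (A : ValuationSubring Qb) (τ : GQ) (j : ℕ), ℓ.Prime ∧ ℓ ∉ B ∧
      A.LiesOverPrime ℓ ∧ A.IsFrobeniusAt τ ℓ ∧ ρ g = ρ τ ^ j := by
  classical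
  obtain ⟨E, hfin, hgal, hlevel⟩ := exists_galois_level ρ hρ
  set B' : Finset (Ideal (𝓞 ℚ)) :=
    B.biUnion (fun n => (Ideal.finite_setOfPred_absNorm_eq (S := 𝓞 ℚ) n).toFinset) with hB'
  obtain ⟨P, σ, hPprime, hP0, hPB, hℓ, hinert, hσ, hzp⟩ :=
    hF E (AlgEquiv.restrictNormalHom E g) B'
  have : P.IsPrime := hPprime
  set ℓ := Ideal.absNorm (P.under (𝓞 ℚ)) with hℓdef
  have hℓB : ℓ ∉ B := by
    intro hmem
    apply hPB
    rw [hB', Finset.mem_biUnion]
    exact ⟨ℓ, hmem, by rw [Set.Finite.mem_toFinset]; exact hℓdef.symm⟩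
  obtain ⟨A, hAP⟩ := Fermat.Agent.S14.Reduction.ValAbove.exists_valuationSubring_above E P hP0
  have hℓP : ((ℓ : ℕ) : 𝓞 E) ∈ P := by
    have h1 : ((ℓ : ℕ) : 𝓞 ℚ) ∈ P.under (𝓞 ℚ) := Ideal.absNorm_mem _
    rw [Ideal.under_def, Ideal.mem_comap, map_natCast] at h1
    exact h1
  have hA : A.LiesOverPrime ℓ := by
    have := (hAP _).mp hℓP
    show ((ℓ : ℕ) : Qb) ∈ A.nonunits
    convert this using 1
    push_cast
    rfl
  have hcard : Nat.card (𝓞 ℚ ⧸ P.under (𝓞 ℚ)) = ℓ := by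
    rw [hℓdef, Ideal.absNorm_apply, Submodule.cardQuot_apply]
  obtain ⟨τ, hτ⟩ := exists_isFrobeniusAt_of_liesOver A ℓ hℓ hA
  have h1 := isArithFrobAt_restrict E A ℓ P hAP hcard τ hτ
  have hστ : σ = AlgEquiv.restrictNormalHom E τ :=
    Fermat.Agent.S14.isArithFrobAt_unique hinert hσ h1
  have hgmem : AlgEquiv.restrictNormalHom E g ∈ Subgroup.zpowers σ := by
    rw [hzp]
    exact Subgroup.mem_zpowers _
  rw [← mem_powers_iff_mem_zpowers] at hgmem
  obtain ⟨j, hj⟩ := hgmem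
  refine ⟨ℓ, A, τ, j, hℓ, hℓB, hA, hτ, ?_⟩
  rw [← map_pow]
  apply hlevel
  rw [map_pow, ← hστ]
  exact hj.symm

end Main

end Fermat.Agent.GJ.FrobLift
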