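/-
GATE-J / J4-CYC (helper22): the mod `p` cyclotomic character of `G_ℚ` in the prelude's language:
it factors through a finite level, takes the value `ℓ` at every Frobenius lift at `ℓ ≠ p`, and is
trivial on inertia at `ℓ ≠ p`.
-/
import Mathlib
import Fermat.Prelude.Def_GaloisRep_Residual
import Fermat.Prelude.Def_ExtCitation_AdmissibleExtension
import Fermat.Agent.Common_helper32.FrobeniusExists
import Fermat.Agent.S05.Inertia

set_option autoImplicit false

open Fermat.Agent.Common_helper32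

namespace Fermat.Agent.GJ.CycChar

section General

variable {L : Type*} [Field L]

/-- A Frobenius lift at `A` acts as the `q`-th power modulo the maximal ideal. -/
theorem apply_sub_pow_mem_nonunits {K : Type*} [Field K] [Algebra K L] {A : ValuationSubring L}
    {τ : L ≃ₐ[K] L} {q : ℕ} (hτ : A.IsFrobeniusAt τ q) {x : L} (hx : x ∈ A) :
    τ x - x ^ q ∈ A.nonunits := by
  have h := hτ.smul_residue_eq (IsLocalRing.residue A ⟨x, hx⟩)
  rw [← IsLocalRing.ResidueField.residue_smul, ← map_pow, ← sub_eq_zero, ← map_sub,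
    IsLocalRing.residue_eq_zero_iff, A.valuation_lt_one_iff] at h
  rw [A.mem_nonunits_iff]
  exact h

/-- If a primitive `p`-th root of unity (`p` prime) is congruent to `1` modulo the maximal ideal of
a valuation subring, then `p` lies in the maximal ideal. -/
theorem natCast_mem_nonunits_of_sub_one_mem {A : ValuationSubring L} {p : ℕ} [Fact p.Prime]
    {η : L} (hη : IsPrimitiveRoot η p) (hηA : η ∈ A) (h : η - 1 ∈ A.nonunits) :
    (p : L) ∈ A.nonunits := by
  have hp : p.Prime := Fact.out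
  -- `∑_{i<p} η^i = 0`
  have hsum : ∑ i ∈ Finset.range p, η ^ i = 0 := by
    have h1 : η ≠ 1 := hη.ne_one hp.one_lt
    have h2 : (1 - η) * ∑ i ∈ Finset.range p, η ^ i = 0 := by
      rw [mul_neg_geom_sum, hη.pow_eq_one, sub_self]
    rcases mul_eq_zero.mp h2 with h3 | h3
    · exact absurd (sub_eq_zero.mp h3).symm h1
    · exact h3
  -- `p = -∑ (η^i - 1)`
  have hpe : (p : L) = -∑ i ∈ Finset.range p, (η ^ i - 1) := by
    rw [Finset.sum_sub_distrib, hsum]
    simp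
  rw [hpe]
  have key : ∀ i : ℕ, η ^ i - 1 ∈ A.nonunits := by
    intro i
    have hdvd : η ^ i - 1 = (η - 1) * ∑ j ∈ Finset.range i, η ^ j := by
      rw [mul_comm, geom_sum_mul]
    rw [hdvd]
    have hmem : (∑ j ∈ Finset.range i, η ^ j) ∈ A :=
      sum_mem fun j _ => pow_mem hηA j
    rw [A.mem_nonunits_iff] at h ⊢
    rw [map_mul]
    exact mul_lt_one_of_lt_of_le h ((A.valuation_le_one_iff _).mpr hmem)
  have hsumm : ∀ (s : Finset ℕ), ∑ i ∈ s, (η ^ i - 1) ∈ A.nonunits := by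
    intro s
    rw [A.mem_nonunits_iff]
    refine A.valuation.map_sum_lt zero_lt_one.ne' (fun i _ => ?_)
    have := key i
    rwa [A.mem_nonunits_iff] at this
  have := hsumm (Finset.range p)
  rw [A.mem_nonunits_iff] at this ⊢
  rwa [Valuation.map_neg]

/-- Two distinct primes cannot both lie in the maximal ideal of a valuation subring. -/
theorem false_of_two_primes_mem {A : ValuationSubring L} {p ℓ : ℕ} (hp : p.Prime) (hℓ : ℓ.Prime)
    (hne : ℓ ≠ p) (h1 : (p : L) ∈ A.nonunits) (h2 : (ℓ : L) ∈ A.nonunits) : False := by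
  have hcop : Nat.Coprime p ℓ := (Nat.coprime_primes hp hℓ).mpr (Ne.symm hne)
  have hb : (p : ℤ) * Nat.gcdA p ℓ + ℓ * Nat.gcdB p ℓ = 1 := by
    have := Nat.gcd_eq_gcd_ab p ℓ
    rw [hcop.gcd_eq_one] at this
    exact_mod_cast this.symm
  have hb' : (p : L) * (Nat.gcdA p ℓ : ℤ) + (ℓ : L) * (Nat.gcdB p ℓ : ℤ) = 1 := by
    exact_mod_cast congrArg (Int.cast : ℤ → L) hb
  have hint : ∀ n : ℤ, A.valuation (n : L) ≤ 1 := fun n =>
    (A.valuation_le_one_iff _).mpr (intCast_mem A n)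
  rw [A.mem_nonunits_iff] at h1 h2
  have h3 : A.valuation ((p : L) * (Nat.gcdA p ℓ : ℤ) + (ℓ : L) * (Nat.gcdB p ℓ : ℤ)) < 1 := by
    refine A.valuation.map_add_lt ?_ ?_
    · rw [map_mul]; exact mul_lt_one_of_lt_of_le h1 (hint _)
    · rw [map_mul]; exact mul_lt_one_of_lt_of_le h2 (hint _)
  rw [hb', map_one] at h3
  exact lt_irrefl _ h3

/-- Away from `p`, `p`-th roots of unity are distinct modulo the maximal ideal. -/
theorem pow_eq_pow_of_sub_mem_nonunits {A : ValuationSubring L} {p ℓ : ℕ} [Fact p.Prime]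
    (hℓ : ℓ.Prime) (hne : ℓ ≠ p) (hA : A.LiesOverPrime ℓ) {ζ : L} (hζ : IsPrimitiveRoot ζ p)
    (hζA : ζ ∈ A) (a b : ℕ) (h : ζ ^ a - ζ ^ b ∈ A.nonunits) : ζ ^ a = ζ ^ b := by
  have hp : p.Prime := Fact.out
  by_contra hab
  wlog hle : b ≤ a generalizing a b
  · refine this b a ?_ (Ne.symm hab) (le_of_not_ge hle)
    rw [A.mem_nonunits_iff] at h ⊢
    rwa [← Valuation.map_neg, neg_sub]
  obtain ⟨c, rfl⟩ := Nat.exists_eq_add_of_le hle
  -- `ζ^b (ζ^c - 1) ∈ 𝔪`, `ζ^b` a unit of `A`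
  have hζ0 : ζ ≠ 0 := hζ.ne_zero hp.ne_zero
  have hval : A.valuation ζ = 1 := by
    have h1 : A.valuation ζ ^ p = 1 := by rw [← map_pow, hζ.pow_eq_one, map_one]
    exact (pow_eq_one_iff_left hp.ne_zero).mp h1
  have hη : ζ ^ c ≠ 1 := by
    intro h1
    apply hab
    rw [pow_add, h1, mul_one]
  have hηprim : IsPrimitiveRoot (ζ ^ c) p := by
    refine hζ.pow_of_coprime c ?_
    rw [Nat.coprime_comm, hp.coprime_iff_not_dvd]
    intro hdvd
    exact hη ((hζ.pow_eq_one_iff_dvd c).mpr hdvd)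
  have hmem : ζ ^ c - 1 ∈ A.nonunits := by
    have e : ζ ^ (b + c) - ζ ^ b = ζ ^ b * (ζ ^ c - 1) := by ring
    rw [e, A.mem_nonunits_iff, map_mul, map_pow, hval, one_pow,
      one_mul] at h
    rwa [A.mem_nonunits_iff]
  exact false_of_two_primes_mem hp hℓ hne
    (natCast_mem_nonunits_of_sub_one_mem hηprim (pow_mem hζA c) hmem) hA

end General

section Cyc

variable (p : ℕ) [Fact p.Prime]

/-- The mod `p` cyclotomic character of `G_ℚ` (same term as in the prelude). -/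
noncomputable def cyc : GQ →* (ZMod p)ˣ :=
  MonoidHom.mk'
    (fun σ => modularCyclotomicCharacter Qb (ExtCitation.card_rootsOfUnity_eq_self p)
      (σ : Qb ≃+* Qb))
    (fun a b => by rw [← map_mul]; congr 1)

@[simp] theorem cyc_apply (σ : GQ) :
    cyc p σ = modularCyclotomicCharacter Qb (ExtCitation.card_rootsOfUnity_eq_self p)
      (σ : Qb ≃+* Qb) := rfl

theorem exists_primitiveRoot : ∃ ζ : Qb, IsPrimitiveRoot ζ p := by
  have : NeZero (p : Qb) := ⟨Nat.cast_ne_zero.mpr (NeZero.ne p)⟩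
  exact HasEnoughRootsOfUnity.exists_primitiveRoot Qb p

variable {p}

theorem apply_eq_pow {ζ : Qb} (hζ : IsPrimitiveRoot ζ p) (σ : GQ) :
    σ ζ = ζ ^ ((cyc p σ : (ZMod p)ˣ) : ZMod p).val := by
  have h := modularCyclotomicCharacter.spec Qb (ExtCitation.card_rootsOfUnity_eq_self p)
    (σ : Qb ≃+* Qb) (t := hζ.toRootsOfUnity) (SetLike.coe_mem hζ.toRootsOfUnity)
  exact h

theorem pow_eq_pow_iff {M : Type*} [CommMonoid M] {ζ : M} (hζ : IsPrimitiveRoot ζ p) (a b : ℕ) :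
    ζ ^ a = ζ ^ b ↔ (a : ZMod p) = b := by
  have hp : p ≠ 0 := (Fact.out : p.Prime).ne_zero
  obtain ⟨u, rfl⟩ := hζ.isUnit hp
  rw [← Units.val_pow_eq_pow_val, ← Units.val_pow_eq_pow_val, Units.val_inj, pow_eq_pow_iff_modEq,
    ← (IsPrimitiveRoot.coe_units_iff.mp hζ).eq_orderOf, ZMod.natCast_eq_natCast_iff]

theorem cyc_eq_natCast_iff {ζ : Qb} (hζ : IsPrimitiveRoot ζ p) (σ : GQ) (n : ℕ) :
    ((cyc p σ : (ZMod p)ˣ) : ZMod p) = n ↔ σ ζ = ζ ^ n := by
  rw [apply_eq_pow hζ, pow_eq_pow_iff hζ, ZMod.natCast_zmod_val]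

theorem cyc_eq_one_iff {ζ : Qb} (hζ : IsPrimitiveRoot ζ p) (σ : GQ) :
    cyc p σ = 1 ↔ σ ζ = ζ := by
  have := cyc_eq_natCast_iff hζ σ 1
  rw [Nat.cast_one, pow_one] at this
  rw [← this]
  exact ⟨fun h => by rw [h, Units.val_one], fun h => Units.ext (by rw [h, Units.val_one])⟩

variable (p)

/-- The cyclotomic character factors through `ℚ(ζ_p)`. -/
theorem cyc_finiteLevel : GaloisFactorsThroughFiniteLevel (cyc p) := by
  obtain ⟨ζ, hζ⟩ := exists_primitiveRoot p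
  have hint : IsIntegral ℚ ζ :=
    (hζ.isIntegral (Fact.out : p.Prime).pos).tower_top (R := ℤ)
  refine ⟨IntermediateField.adjoin ℚ {ζ}, IntermediateField.adjoin.finiteDimensional hint,
    fun σ hσ => ?_⟩
  rw [cyc_eq_one_iff hζ]
  exact hσ ζ (IntermediateField.mem_adjoin_simple_self ℚ ζ)

variable {p}

/-- The cyclotomic character takes the value `ℓ` at a Frobenius lift at `ℓ ≠ p`. -/
theorem cyc_frob {ℓ : ℕ} (hℓ : ℓ.Prime) (hne : ℓ ≠ p) {A : ValuationSubring Qb}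
    (hA : A.LiesOverPrime ℓ) {τ : GQ} (hτ : A.IsFrobeniusAt τ ℓ) :
    ((cyc p τ : (ZMod p)ˣ) : ZMod p) = ℓ := by
  obtain ⟨ζ, hζ⟩ := exists_primitiveRoot p
  have hζA : ζ ∈ A := isIntegral_mem_valuationSubring A ζ
    (hζ.isIntegral (Fact.out : p.Prime).pos)
  rw [cyc_eq_natCast_iff hζ]
  have h1 := apply_sub_pow_mem_nonunits hτ hζA
  rw [apply_eq_pow hζ] at h1 ⊢
  exact pow_eq_pow_of_sub_mem_nonunits hℓ hne hA hζ hζA _ _ h1

/-- The cyclotomic character is unramified at `ℓ ≠ p`. -/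
theorem cyc_inertia {ℓ : ℕ} (hℓ : ℓ.Prime) (hne : ℓ ≠ p) {A : ValuationSubring Qb}
    (hA : A.LiesOverPrime ℓ) {σ : GQ} (hσ : σ ∈ A.inertiaSubgroupIn ℚ) :
    cyc p σ = 1 := by
  obtain ⟨ζ, hζ⟩ := exists_primitiveRoot p
  have hζA : ζ ∈ A := isIntegral_mem_valuationSubring A ζ
    (hζ.isIntegral (Fact.out : p.Prime).pos)
  rw [cyc_eq_one_iff hζ]
  have h1 := Fermat.Agent.S05.apply_sub_mem_nonunits_of_mem_inertiaSubgroupIn hσ hζA
  rw [apply_eq_pow hζ] at h1 ⊢
  have h2 : ζ ^ ((cyc p σ : (ZMod p)ˣ) : ZMod p).val - ζ ^ 1 ∈ A.nonunits := by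
    rwa [pow_one]
  have := pow_eq_pow_of_sub_mem_nonunits hℓ hne hA hζ hζA _ _ h2
  rwa [pow_one] at this

end Cyc

end Fermat.Agent.GJ.CycChar
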