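/-
GATE-J / J4-CYC (helper22): the interface `J4Asm.HasCycChar p k0` of `GJ/J4/S29Asm.lean`
discharged by `GJ/CycChar.lean`, for every field `k0` of characteristic `p`.
-/
import Mathlib
import Fermat.Agent.GJ.CycChar
import Fermat.Agent.GJ.J4.S29Asm

set_option autoImplicit false

open Fermat.Agent.Common_helper32

namespace Fermat.Agent.GJ.CycChar

variable (p : ℕ) [Fact p.Prime] (k0 : Type) [Field k0] [CharP k0 p]

/-- The mod `p` cyclotomic character with values in `k0ˣ`. -/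
noncomputable def cycK : GQ →* k0ˣ :=
  (Units.map ((ZMod.castHom (dvd_refl p) k0 : ZMod p →+* k0) : ZMod p →* k0)).comp (cyc p)

theorem cycK_val (σ : GQ) :
    ((cycK p k0 σ : k0ˣ) : k0) = ZMod.castHom (dvd_refl p) k0 ((cyc p σ : (ZMod p)ˣ) : ZMod p) :=
  rfl

theorem cycK_finiteLevel : GaloisFactorsThroughFiniteLevel (cycK p k0) := by
  obtain ⟨L, hL, h⟩ := cyc_finiteLevel p
  exact ⟨L, hL, fun σ hσ => by rw [cycK, MonoidHom.comp_apply, h σ hσ, map_one]⟩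

theorem cycK_inertia {ℓ : ℕ} (hℓ : ℓ.Prime) (hne : ℓ ≠ p) {A : ValuationSubring Qb}
    (hA : A.LiesOverPrime ℓ) {σ : GQ} (hσ : σ ∈ A.inertiaSubgroupIn ℚ) : cycK p k0 σ = 1 := by
  rw [cycK, MonoidHom.comp_apply, cyc_inertia hℓ hne hA hσ, map_one]

theorem cycK_frob {ℓ : ℕ} (hℓ : ℓ.Prime) (hne : ℓ ≠ p) {A : ValuationSubring Qb}
    (hA : A.LiesOverPrime ℓ) {τ : GQ} (hτ : A.IsFrobeniusAt τ ℓ) :
    ((cycK p k0 τ : k0ˣ) : k0) = (ℓ : k0) := by
  rw [cycK_val, cyc_frob hℓ hne hA hτ, map_natCast]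

/-- The interface (CYC) of `GJ/J4/S29Asm.lean`. -/
theorem hasCycChar : Fermat.Agent.GJ.J4Asm.HasCycChar p k0 :=
  ⟨cycK p k0, cycK_finiteLevel p k0,
    fun _ hℓ hne _ hA _ hσ => cycK_inertia p k0 hℓ hne hA hσ,
    fun _ hℓ hne _ hA _ hτ => cycK_frob p k0 hℓ hne hA hτ⟩

end Fermat.Agent.GJ.CycChar
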