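/-
GATE-J / J4-FL (helper22): `FrobGenQ` discharged by `GJ/Frob` (helper77), hence the unconditional
form of (FL1): every value of a finite-level representation of `G_ℚ` is a power of the value at a
Frobenius lift at a prime outside any given finite set.
-/
import Mathlib
import Fermat.Agent.GJ.FrobLift
import Fermat.Agent.GJ.Frob.Main

set_option autoImplicit false

open scoped NumberField
open Fermat.Agent.Common_helper32

namespace Fermat.Agent.GJ.FrobLift

/-- Frobenius' theorem over `ℚ` in the shape consumed by `exists_isFrobeniusAt_pow`. -/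
theorem frobGenQ : FrobGenQ := by
  intro E _ _ g B
  obtain ⟨P, σ, h1, h2, h3, h4, _, h6, h7, h8⟩ :=
    Fermat.Agent.GJ.Frob.exists_frob_zpowers_eq ℚ E g B
  exact ⟨P, σ, h1, h2, h3, h4, h6, h7, h8⟩

variable {M : Type} [Monoid M]

/-- (FL1), unconditional. -/
theorem exists_isFrobeniusAt_pow' (ρ : GQ →* M) (hρ : GaloisFactorsThroughFiniteLevel ρ)
    (B : Finset ℕ) (g : GQ) :
    ∃ (ℓ : ℕ) (A : ValuationSubring Qb) (τ : GQ) (j : ℕ), ℓ.Prime ∧ ℓ ∉ B ∧
      A.LiesOverPrime ℓ ∧ A.IsFrobeniusAt τ ℓ ∧ ρ g = ρ τ ^ j :=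
  exists_isFrobeniusAt_pow frobGenQ ρ hρ B g

end Fermat.Agent.GJ.FrobLift
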