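/-
GATE-J / J4-LEVEL (helper69): finite-level (open stabiliser) bricks.

Every element of `laurentBaseChange Qb F₀ ⊆ Qb((q))` is fixed (coefficientwise) by
`Gal(Qb/E)` for some finite `E/ℚ`; hence every *torsion* class of
`Pic0 Qb (laurentBaseChange Qb F₀)` is fixed by such a subgroup, and the prelude's
`JZero.torsionGaloisRep N n` factors through a finite level as soon as the torsion group is
finite.  Also a generic criterion `factorsThroughFiniteLevel_of_pointwise` for J4-ASM.
-/
import Mathlib
import Fermat.Prelude.Def_ModularCurve_ArithmeticGalois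
import Fermat.Prelude.Def_GaloisRep_Residual

set_option autoImplicit false

noncomputable section

open ModularCurve AlgebraicCurve IntermediateField HahnSeries

namespace Fermat.Agent.GJ.FiniteLevel

local notation "Qb" => AlgebraicClosure ℚ
local notation "GQ" => (AlgebraicClosure ℚ ≃ₐ[ℚ] AlgebraicClosure ℚ)

/-- `σ` fixes the intermediate field `E` pointwise (the shape used by the prelude's
`GaloisFactorsThroughFiniteLevel`). -/
def Fixes (E : IntermediateField ℚ Qb) (σ : GQ) : Prop := ∀ a ∈ E, σ a = a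

theorem Fixes.mono {E E' : IntermediateField ℚ Qb} (h : E ≤ E') {σ : GQ} (hσ : Fixes E' σ) :
    Fixes E σ := fun a ha => hσ a (h ha)

/-- A predicate on `GQ` is *of finite level* if it holds on `Gal(Qb/E)` for some finite `E/ℚ`. -/
def HasLevel (P : GQ → Prop) : Prop :=
  ∃ E : IntermediateField ℚ Qb, FiniteDimensional ℚ E ∧ ∀ σ : GQ, Fixes E σ → P σ

theorem HasLevel.mono {P Q : GQ → Prop} (h : ∀ σ, P σ → Q σ) (hP : HasLevel P) : HasLevel Q := by
  obtain ⟨E, hE, hP⟩ := hP
  exact ⟨E, hE, fun σ hσ => h σ (hP σ hσ)⟩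

theorem HasLevel.and {P Q : GQ → Prop} (hP : HasLevel P) (hQ : HasLevel Q) :
    HasLevel (fun σ => P σ ∧ Q σ) := by
  obtain ⟨E, hE, hP⟩ := hP
  obtain ⟨E', hE', hQ⟩ := hQ
  have := hE; have := hE'
  exact ⟨E ⊔ E', IntermediateField.finiteDimensional_sup E E', fun σ hσ =>
    ⟨hP σ (hσ.mono le_sup_left), hQ σ (hσ.mono le_sup_right)⟩⟩

theorem hasLevel_true : HasLevel (fun _ => True) :=
  ⟨⊥, inferInstance, fun _ _ => trivial⟩

theorem hasLevel_of_forall {P : GQ → Prop} (h : ∀ σ, P σ) : HasLevel P :=
  hasLevel_true.mono fun σ _ => h σ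

/-- Finite conjunctions of finite-level predicates are of finite level. -/
theorem hasLevel_finset {ι : Type*} (s : Finset ι) (P : ι → GQ → Prop)
    (h : ∀ i ∈ s, HasLevel (P i)) : HasLevel (fun σ => ∀ i ∈ s, P i σ) := by
  classical
  induction s using Finset.induction_on with
  | empty => exact hasLevel_of_forall fun σ i hi => absurd hi (Finset.notMem_empty i)
  | insert a s _ ih =>
    have h1 : HasLevel (P a) := h a (Finset.mem_insert_self a s)
    have h2 : HasLevel (fun σ => ∀ i ∈ s, P i σ) :=
      ih fun i hi => h i (Finset.mem_insert_of_mem hi)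
    refine (h1.and h2).mono fun σ hσ i hi => ?_
    rcases Finset.mem_insert.mp hi with rfl | hi
    · exact hσ.1
    · exact hσ.2 i hi

theorem hasLevel_forall_finite {ι : Type*} [Finite ι] (P : ι → GQ → Prop)
    (h : ∀ i, HasLevel (P i)) : HasLevel (fun σ => ∀ i, P i σ) := by
  classical
  have := Fintype.ofFinite ι
  exact (hasLevel_finset Finset.univ P fun i _ => h i).mono fun σ hσ i => hσ i (Finset.mem_univ i)

/-- A single algebraic number is fixed by a finite-level subgroup. -/
theorem hasLevel_apply_eq (a : Qb) : HasLevel (fun σ => σ a = a) := by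
  have halg : IsIntegral ℚ a := ((AlgebraicClosure.isAlgebraic ℚ).isAlgebraic a).isIntegral
  exact ⟨ℚ⟮a⟯, IntermediateField.adjoin.finiteDimensional halg,
    fun σ hσ => hσ a (IntermediateField.mem_adjoin_simple_self ℚ a)⟩

section Series

variable (F₀ : IntermediateField ℚ (LaurentSeries ℚ))

/-- (L1) Every element of `laurentBaseChange Qb F₀` is fixed coefficientwise by a finite-level
subgroup of `G_ℚ`. -/
theorem hasLevel_coeffMap_eq {x : LaurentSeries Qb} (hx : x ∈ laurentBaseChange Qb F₀) :
    HasLevel (fun σ => coeffMap (σ : Qb →+* Qb) x = x) := by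
  rw [mem_laurentBaseChange_iff] at hx
  induction hx using Subfield.closure_induction with
  | mem y hy =>
      rcases hy with ⟨a, rfl⟩ | ⟨z, _, rfl⟩
      · refine (hasLevel_apply_eq a).mono fun σ hσ => ?_
        rw [coeffMap_algebraMap]
        exact congrArg _ hσ
      · exact hasLevel_of_forall fun σ => coeffMap_coeffEmb σ z
  | one => exact hasLevel_of_forall fun σ => map_one _
  | add x y _ _ hx hy =>
      exact (hx.and hy).mono fun σ h => by rw [map_add, h.1, h.2]
  | neg x _ hx => exact hx.mono fun σ h => by rw [map_neg, h]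
  | inv x _ hx => exact hx.mono fun σ h => by rw [map_inv₀, h]
  | mul x y _ _ hx hy =>
      exact (hx.and hy).mono fun σ h => by rw [map_mul, h.1, h.2]

/-- (L1) in unfolded form. -/
theorem exists_level_of_mem {x : LaurentSeries Qb} (hx : x ∈ laurentBaseChange Qb F₀) :
    ∃ E : IntermediateField ℚ Qb, FiniteDimensional ℚ E ∧
      ∀ σ : GQ, (∀ a ∈ E, σ a = a) → coeffMap (σ : Qb →+* Qb) x = x :=
  hasLevel_coeffMap_eq F₀ hx

/-- (L2) `arithmeticGalois` form. -/
theorem hasLevel_arithmeticGalois_smul_eq (x : laurentBaseChange Qb F₀) :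
    HasLevel (fun σ => arithmeticGalois F₀ σ • x = x) :=
  (hasLevel_coeffMap_eq F₀ x.2).mono fun σ h => Subtype.ext <| by
    rw [coe_arithmeticGalois_smul]; exact h

/-- (L2) `arithmeticRingAut` form. -/
theorem hasLevel_arithmeticRingAut_eq (x : laurentBaseChange Qb F₀) :
    HasLevel (fun σ => arithmeticRingAut F₀ σ x = x) :=
  (hasLevel_coeffMap_eq F₀ x.2).mono fun σ h => Subtype.ext <| by
    rw [coe_arithmeticRingAut_apply]; exact h

/-- (L2) finitely many elements at once. -/
theorem hasLevel_arithmeticGalois_smul_eq_finset (s : Finset (laurentBaseChange Qb F₀)) :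
    HasLevel (fun σ => ∀ x ∈ s, arithmeticGalois F₀ σ • x = x) :=
  hasLevel_finset s _ fun x _ => hasLevel_arithmeticGalois_smul_eq F₀ x

/-- If `g` fixes a nonzero function `f` whose divisor is `n • D` (`n ≠ 0`), then `g` fixes `D`. -/
theorem smul_divisor_eq_of_smul_eq {K F : Type*} [Field K] [Field F] [Algebra K F]
    (g : SemilinearAut K F) {n : ℤ} (hn : n ≠ 0) {D : Divisor K F} {f : F}
    (hD : ∀ v : Place K F, n * D v = v.ord f) (hg : g • f = f) : g • D = D := by
  ext w
  rw [SemilinearAut.divisor_smul_apply]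
  have h1 : n * D (g⁻¹ • w) = (g⁻¹ • w).ord f := hD _
  have h2 : (g • (g⁻¹ • w)).ord (g • f) = (g⁻¹ • w).ord f := SemilinearAut.ord_smul g (g⁻¹ • w) f
  rw [smul_inv_smul, hg] at h2
  have h3 : n * D (g⁻¹ • w) = n * D w := by rw [h1, ← h2, hD w]
  exact mul_left_cancel₀ hn h3


/-- (L3) Every torsion class of `Pic0 Qb (laurentBaseChange Qb F₀)` is fixed by a finite-level
subgroup of `G_ℚ` (prelude Galois action on `Pic0`). -/
theorem hasLevel_smul_eq_of_torsion {n : ℕ} (hn : n ≠ 0)
    (z : Pic0 Qb (laurentBaseChange Qb F₀)) (hz : n • z = 0) :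
    HasLevel (fun σ => σ • z = z) := by
  obtain ⟨D, rfl⟩ := Pic0.mk_surjective z
  have hmem : n • D ∈ (Divisor.principal (K := Qb) (F := laurentBaseChange Qb F₀)).addSubgroupOf
      (Divisor.degZero (K := Qb) (F := laurentBaseChange Qb F₀)) := by
    have h0 : (Pic0.mk (n • D) : Pic0 Qb (laurentBaseChange Qb F₀)) = 0 := hz
    exact (QuotientAddGroup.eq_zero_iff _).mp h0
  rw [AddSubgroup.mem_addSubgroupOf] at hmem
  obtain ⟨f, hf, hfD⟩ := hmem
  refine (hasLevel_arithmeticGalois_smul_eq F₀ f).mono fun σ hσ => ?_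
  have hD : ∀ v : Place Qb (laurentBaseChange Qb F₀),
      (n : ℤ) * (D : Divisor Qb (laurentBaseChange Qb F₀)) v = v.ord f := by
    intro v
    have := hfD v
    rw [AddSubgroupClass.coe_nsmul, Finsupp.smul_apply, nsmul_eq_mul] at this
    exact this
  have hfix : arithmeticGalois F₀ σ • (D : Divisor Qb (laurentBaseChange Qb F₀))
      = (D : Divisor Qb (laurentBaseChange Qb F₀)) :=
    smul_divisor_eq_of_smul_eq (arithmeticGalois F₀ σ) (Int.natCast_ne_zero.mpr hn) hD hσ
  rw [galois_smul_pic0_def, SemilinearAut.pic0_smul_mk]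
  exact congrArg Pic0.mk (Subtype.ext (by rw [SemilinearAut.coe_degZeroSMulHom, hfix]))

theorem exists_level_of_torsion {n : ℕ} (hn : n ≠ 0)
    (z : Pic0 Qb (laurentBaseChange Qb F₀)) (hz : n • z = 0) :
    ∃ E : IntermediateField ℚ Qb, FiniteDimensional ℚ E ∧
      ∀ σ : GQ, (∀ a ∈ E, σ a = a) → σ • z = z :=
  hasLevel_smul_eq_of_torsion F₀ hn z hz

end Series


section Generic

/-- Generic criterion for J4-ASM: a representation of `G_ℚ` on a finitely generated module in
which every vector has a finite-level stabiliser factors through a finite level. -/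
theorem factorsThroughFiniteLevel_of_pointwise {k V : Type} [Semiring k] [AddCommMonoid V]
    [Module k V] [Module.Finite k V] (ρ : GQ →* Module.End k V)
    (h : ∀ v : V, HasLevel (fun σ => ρ σ v = v)) : GaloisFactorsThroughFiniteLevel ρ := by
  obtain ⟨s, hs⟩ := (Module.finite_def (R := k) (M := V)).mp inferInstance
  obtain ⟨E, hE, hfix⟩ := hasLevel_finset s (fun v σ => ρ σ v = v) fun v _ => h v
  refine ⟨E, hE, fun σ hσ => ?_⟩
  refine LinearMap.ext_on_range (v := fun v : s => (v : V)) ?_ fun v => ?_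
  · rw [Subtype.range_coe_subtype]; exact hs
  · exact hfix σ hσ v v.2

/-- Variant: it suffices to check a spanning set. -/
theorem factorsThroughFiniteLevel_of_span {k V : Type} [Semiring k] [AddCommMonoid V]
    [Module k V] (ρ : GQ →* Module.End k V) (s : Set V) (hfin : s.Finite)
    (hs : Submodule.span k s = ⊤) (h : ∀ v ∈ s, HasLevel (fun σ => ρ σ v = v)) :
    GaloisFactorsThroughFiniteLevel ρ := by
  obtain ⟨E, hE, hfix⟩ := hasLevel_finset hfin.toFinset (fun v σ => ρ σ v = v)
    fun v hv => h v (hfin.mem_toFinset.mp hv)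
  refine ⟨E, hE, fun σ hσ => ?_⟩
  refine LinearMap.ext_on hs fun v hv => ?_
  exact hfix σ hσ v (hfin.mem_toFinset.mpr hv)

end Generic

section JZero

/-- (L4) The prelude's Galois representation on the `n`-torsion of `J₀(N)` factors through a
finite level as soon as that torsion group is finite. -/
theorem factorsThroughFiniteLevel_torsionGaloisRep (N : ℕ) {n : ℕ} (hn : n ≠ 0)
    [Finite (Pic0.torsion Qb (modularFunctionFieldBar N) n)] :
    GaloisFactorsThroughFiniteLevel (JZero.torsionGaloisRep N n) := by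
  have key : HasLevel (fun σ : GQ =>
      ∀ x : Pic0.torsion Qb (modularFunctionFieldBar N) n, σ • (x : JZero N) = (x : JZero N)) := by
    refine hasLevel_forall_finite _ fun x => ?_
    refine hasLevel_smul_eq_of_torsion (modularFunctionFieldFull N) hn (x : JZero N) ?_
    have hx := (Pic0.mem_torsion (K := Qb) (F := modularFunctionFieldBar N)).mp x.2
    rwa [natCast_zsmul] at hx
  obtain ⟨E, hE, hfix⟩ := key
  refine ⟨E, hE, fun σ hσ => ?_⟩
  refine LinearMap.ext fun x => Subtype.ext ?_
  rw [JZero.coe_torsionGaloisRep_apply]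
  exact hfix σ hσ x

end JZero

end Fermat.Agent.GJ.FiniteLevel
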