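/-
GATE-J / J4: hypothesis-form consumer for S37 (`ModularCurve.SpecializationExists`).

`SpecializationExists N p J` follows as soon as, for every prime `ℓ ∤ N p` and every valuation
subring `A` of `ℚ̄` over `ℓ`, there is a Hecke-stable subgroup `J1 ≤ J` ("kernel of reduction at
`A`") such that
* `σ x - x ∈ J1` for `σ` in the inertia group of `A`;
* `J1` is stable under the Frobenius lifts at `A`;
* `J1` contains no nonzero `p`-power torsion (S18-type input);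
* `σ² x - T_ℓ σ x + ℓ x ∈ J1` for every Frobenius lift `σ` at `A` (Eichler–Shimura relation).
One takes `J' := J ⧸ J1`, `sp :=` the quotient map, `F :=` the map induced by a Frobenius lift.
-/
import Mathlib
import Fermat.Prelude.Def_HeckeGalois_EichlerShimura
import Fermat.Agent.Common_helper32.FrobeniusExists

set_option autoImplicit false

namespace Fermat.Agent.GJ.S37Pack

open ModularCurve

section General

variable {K L : Type*} [Field K] [Field L] [Algebra K L]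

/-- Two Frobenius lifts at `A` differ by an element of the inertia group. -/
theorem inv_mul_mem_inertiaSubgroupIn {A : ValuationSubring L} {q : ℕ} {σ τ : L ≃ₐ[K] L}
    (hσ : A.IsFrobeniusAt σ q) (hτ : A.IsFrobeniusAt τ q) :
    σ⁻¹ * τ ∈ A.inertiaSubgroupIn K := by
  obtain ⟨hσD, hσx⟩ := hσ
  obtain ⟨hτD, hτx⟩ := hτ
  refine ⟨(⟨σ, hσD⟩ : A.decompositionSubgroup K)⁻¹ * ⟨τ, hτD⟩, ?_, rfl⟩
  change _ ∈ MonoidHom.ker _
  rw [MonoidHom.mem_ker]
  ext x
  change ((⟨σ, hσD⟩ : A.decompositionSubgroup K)⁻¹ * ⟨τ, hτD⟩) • x = x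
  rw [mul_smul, hτx x, ← hσx x, inv_smul_smul]

variable (p : ℕ) (J : Type) [AddCommGroup J] [Module HeckeAlg J]
  [DistribMulAction (L ≃ₐ[K] L) J] [SMulCommClass (L ≃ₐ[K] L) HeckeAlg J]

/-- A "kernel of reduction" at the valuation subring `A` over `ℓ`. -/
structure IsReductionKernel (A : ValuationSubring L) (ℓ : ℕ) (hℓ : ℓ.Prime)
    (J1 : Submodule HeckeAlg J) : Prop where
  inertia : ∀ σ ∈ A.inertiaSubgroupIn K, ∀ x : J, σ • x - x ∈ J1
  frob_stable : ∀ σ : L ≃ₐ[K] L, A.IsFrobeniusAt σ ℓ → ∀ x ∈ J1, σ • x ∈ J1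
  torsion_free : ∀ x ∈ J1, (∃ n : ℕ, p ^ n • x = 0) → x = 0
  relation : ∀ σ : L ≃ₐ[K] L, A.IsFrobeniusAt σ ℓ → ∀ x : J,
    σ • σ • x - heckeGen ⟨ℓ, hℓ⟩ • (σ • x) + ℓ • x ∈ J1

variable {p J}

/-- The Hecke-linear map given by the action of a Galois element. -/
noncomputable def galLin (σ : L ≃ₐ[K] L) : J →ₗ[HeckeAlg] J :=
  DistribSMul.toLinearMap HeckeAlg J σ

@[simp] theorem galLin_apply (σ : L ≃ₐ[K] L) (x : J) : galLin (J := J) σ x = σ • x := rfl

theorem exists_specialization {A : ValuationSubring L} {ℓ : ℕ} {hℓ : ℓ.Prime}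
    {J1 : Submodule HeckeAlg J} (h : IsReductionKernel (K := K) p J A ℓ hℓ J1)
    (hfrob : ∃ σ : L ≃ₐ[K] L, A.IsFrobeniusAt σ ℓ) :
    ∃ (J' : Type) (_ : AddCommGroup J') (_ : Module HeckeAlg J') (sp : J →+ J')
      (F : J' →+ J'),
      IsSpecialization (K := K) p J J' A ℓ sp F ∧ SpecialFibreRelation J' ℓ hℓ F := by
  obtain ⟨σ₀, hσ₀⟩ := hfrob
  have hstab : J1 ≤ J1.comap (galLin (J := J) σ₀) := fun x hx => h.frob_stable σ₀ hσ₀ x hx
  refine ⟨J ⧸ J1, inferInstance, inferInstance, J1.mkQ.toAddMonoidHom,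
    (J1.mapQ J1 (galLin σ₀) hstab).toAddMonoidHom, ⟨?_, ?_, ?_, ?_⟩, ?_⟩
  · intro T x
    exact map_smul J1.mkQ T x
  · intro σ hσ x
    change J1.mkQ (σ • x) = J1.mkQ x
    rw [← sub_eq_zero, ← map_sub, Submodule.mkQ_apply, Submodule.Quotient.mk_eq_zero]
    exact h.inertia σ hσ x
  · intro σ hσ x
    change J1.mkQ (σ • x) = J1.mapQ J1 (galLin σ₀) hstab (J1.mkQ x)
    rw [Submodule.mkQ_apply, Submodule.mkQ_apply, Submodule.mapQ_apply, galLin_apply,
      Submodule.Quotient.eq]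
    -- σ x - σ₀ x = σ₀ ((σ₀⁻¹ σ) x - x)
    have hin := inv_mul_mem_inertiaSubgroupIn (K := K) hσ₀ hσ
    have h1 := h.frob_stable σ₀ hσ₀ _ (h.inertia _ hin x)
    have : σ₀ • ((σ₀⁻¹ * σ) • x - x) = σ • x - σ₀ • x := by
      rw [smul_sub, mul_smul, smul_inv_smul]
    rwa [this] at h1
  · intro x hx hx0
    change J1.mkQ x = 0 at hx0
    rw [Submodule.mkQ_apply, Submodule.Quotient.mk_eq_zero] at hx0
    exact h.torsion_free x hx0 hx
  · intro y
    obtain ⟨x, rfl⟩ := J1.mkQ_surjective y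
    change J1.mapQ J1 (galLin σ₀) hstab (J1.mapQ J1 (galLin σ₀) hstab (J1.mkQ x))
      - heckeGen ⟨ℓ, hℓ⟩ • J1.mapQ J1 (galLin σ₀) hstab (J1.mkQ x) + ℓ • J1.mkQ x = 0
    simp only [Submodule.mkQ_apply, Submodule.mapQ_apply, galLin_apply]
    rw [← Submodule.Quotient.mk_smul, ← Submodule.Quotient.mk_sub, ← Submodule.Quotient.mk_smul,
      ← Submodule.Quotient.mk_add, Submodule.Quotient.mk_eq_zero]
    exact h.relation σ₀ hσ₀ x

end General

/-- **S37 in hypothesis form**: `SpecializationExists` over `ℚ̄/ℚ` from kernels of reduction. -/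
theorem specializationExists_of_kernels (N p : ℕ) (J : Type) [AddCommGroup J]
    [Module HeckeAlg J]
    [DistribMulAction (AlgebraicClosure ℚ ≃ₐ[ℚ] AlgebraicClosure ℚ) J]
    [SMulCommClass (AlgebraicClosure ℚ ≃ₐ[ℚ] AlgebraicClosure ℚ) HeckeAlg J]
    (h : ∀ ℓ : ℕ, (hℓ : ℓ.Prime) → ¬ ℓ ∣ N * p →
      ∀ A : ValuationSubring (AlgebraicClosure ℚ), A.LiesOverPrime ℓ →
        ∃ J1 : Submodule HeckeAlg J, IsReductionKernel (K := ℚ) p J A ℓ hℓ J1) :
    SpecializationExists (K := ℚ) (L := AlgebraicClosure ℚ) N p J := by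
  intro ℓ hℓ hℓN A hA
  obtain ⟨J1, hJ1⟩ := h ℓ hℓ hℓN A hA
  exact exists_specialization hJ1
    (Fermat.Agent.Common_helper32.exists_isFrobeniusAt_of_liesOver A ℓ hℓ hA)

end Fermat.Agent.GJ.S37Pack
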