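/-
GATE-J / J4-PKG (helper22): finite-level bookkeeping for representations of `G_ℚ`:
products, and the "number field `F` with `Gal(ℚ̄/F) ≤ ker`" packaging used by
`FreyPackage.EigenformResidualAttachmentAt`.
-/
import Mathlib
import Fermat.Prelude.Def_GaloisRep_Residual
import Fermat.Agent.GJ.FrobLift

set_option autoImplicit false

open Fermat.Agent.Common_helper32

namespace Fermat.Agent.GJ.Pkg

section Prod

variable {M₁ M₂ : Type} [Monoid M₁] [Monoid M₂]

/-- The product of two finite-level representations is of finite level. -/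
theorem finiteLevel_prod (ρ₁ : GQ →* M₁) (ρ₂ : GQ →* M₂)
    (h₁ : GaloisFactorsThroughFiniteLevel ρ₁) (h₂ : GaloisFactorsThroughFiniteLevel ρ₂) :
    GaloisFactorsThroughFiniteLevel (ρ₁.prod ρ₂) := by
  obtain ⟨L₁, hf₁, hL₁⟩ := h₁
  obtain ⟨L₂, hf₂, hL₂⟩ := h₂
  have : FiniteDimensional ℚ L₁ := hf₁
  have : FiniteDimensional ℚ L₂ := hf₂
  refine ⟨L₁ ⊔ L₂, IntermediateField.finiteDimensional_sup L₁ L₂, fun σ hσ => ?_⟩
  rw [MonoidHom.prod_apply, Prod.mk_eq_one]
  exact ⟨hL₁ σ fun x hx => hσ x ((le_sup_left : L₁ ≤ L₁ ⊔ L₂) hx),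
    hL₂ σ fun x hx => hσ x ((le_sup_right : L₂ ≤ L₁ ⊔ L₂) hx)⟩

/-- Composition with a monoid homomorphism preserves finite level. -/
theorem finiteLevel_comp {M₃ : Type} [Monoid M₃] (ρ : GQ →* M₁) (f : M₁ →* M₃)
    (h : GaloisFactorsThroughFiniteLevel ρ) : GaloisFactorsThroughFiniteLevel (f.comp ρ) := by
  obtain ⟨L, hf, hL⟩ := h
  exact ⟨L, hf, fun σ hσ => by rw [MonoidHom.comp_apply, hL σ hσ, map_one]⟩

end Prod

section Field

variable {M : Type} [Monoid M]

/-- Auxiliary: the packaging for a finite Galois `E ⊆ ℚ̄`, for *any* `ℚ`-algebra instance on `E`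
(they are all equal). -/
theorem ker_restrictNormalHom_le_aux (ρ : GQ →* M) (E : IntermediateField ℚ Qb)
    (hE : ∀ σ : GQ, (∀ x ∈ E, σ x = x) → ρ σ = 1)
    (inst : Algebra ℚ E) [IsScalarTower ℚ E Qb] [Normal ℚ E] :
    (AlgEquiv.restrictNormalHom (F := ℚ) (K₁ := Qb) E).ker ≤ ρ.ker := by
  intro σ hσ
  rw [MonoidHom.mem_ker] at hσ ⊢
  refine hE σ fun x hx => ?_
  have h1 := AlgEquiv.restrictNormal_commutes σ E (⟨x, hx⟩ : E)
  have h2 : σ.restrictNormal E = 1 := hσ
  rw [h2] at h1
  exact h1.symm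

/-- A finite-level representation of `G_ℚ` is trivial on `Gal(ℚ̄/F)` for a number field `F`,
Galois over `ℚ`, embedded in `ℚ̄` (in the exact shape of
`FreyPackage.EigenformResidualAttachmentAt`). -/
theorem exists_numberField_level (ρ : GQ →* M) (hρ : GaloisFactorsThroughFiniteLevel ρ) :
    ∃ (F : Type) (_ : Field F) (_ : NumberField F) (_ : IsGalois ℚ F)
      (_ : Algebra F (AlgebraicClosure ℚ)) (_ : IsScalarTower ℚ F (AlgebraicClosure ℚ)),
      (AlgEquiv.restrictNormalHom (F := ℚ) (K₁ := AlgebraicClosure ℚ) F).ker ≤ ρ.ker := by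
  obtain ⟨L₀, hfin, h1⟩ := hρ
  have : FiniteDimensional ℚ L₀ := hfin
  set E : IntermediateField ℚ Qb := IntermediateField.normalClosure ℚ L₀ Qb with hEdef
  have hn : Normal ℚ E := normalClosure.normal ℚ L₀ Qb
  have hfd : FiniteDimensional ℚ E := inferInstance
  have hgal : IsGalois ℚ E := ⟨⟩
  have hE : ∀ σ : GQ, (∀ x ∈ E, σ x = x) → ρ σ = 1 := fun σ hσ =>
    h1 σ fun x hx => hσ x (IntermediateField.le_normalClosure L₀ hx)
  have hnf : NumberField E := FrobLift.numberField E
  exact ⟨E, inferInstance, hnf, hgal, inferInstance, inferInstance,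
    ker_restrictNormalHom_le_aux ρ E hE _⟩

/-- Two finite-level representations at once (shape of
`FreyPackage.EigenformResidualAttachmentAt`). -/
theorem exists_numberField_level₂ {M₁ M₂ : Type} [Monoid M₁] [Monoid M₂] (ρ₁ : GQ →* M₁)
    (ρ₂ : GQ →* M₂) (h₁ : GaloisFactorsThroughFiniteLevel ρ₁)
    (h₂ : GaloisFactorsThroughFiniteLevel ρ₂) :
    ∃ (F : Type) (_ : Field F) (_ : NumberField F) (_ : IsGalois ℚ F)
      (_ : Algebra F (AlgebraicClosure ℚ)) (_ : IsScalarTower ℚ F (AlgebraicClosure ℚ)),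
      (AlgEquiv.restrictNormalHom (F := ℚ) (K₁ := AlgebraicClosure ℚ) F).ker ≤
        ρ₁.ker ⊓ ρ₂.ker := by
  obtain ⟨F, i1, i2, i3, i4, i5, h⟩ :=
    exists_numberField_level (ρ₁.prod ρ₂) (finiteLevel_prod ρ₁ ρ₂ h₁ h₂)
  refine ⟨F, i1, i2, i3, i4, i5, fun σ hσ => ?_⟩
  have := h hσ
  rw [MonoidHom.mem_ker, MonoidHom.prod_apply, Prod.mk_eq_one] at this
  exact ⟨this.1, this.2⟩

end Field

section Charpoly

open Polynomial

variable {k : Type*} [Field k] {V : Type*} [AddCommGroup V] [Module k V]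

/-- Trace and determinant of an endomorphism of a two-dimensional space from its characteristic
polynomial. -/
theorem trace_det_of_charpoly [Module.Finite k V] (h2 : Module.finrank k V = 2)
    (f : Module.End k V) (a d : k) (hf : LinearMap.charpoly f = X ^ 2 - C a * X + C d) :
    LinearMap.trace k V f = a ∧ LinearMap.det f = d := by
  constructor
  · let b := Module.finBasis k V
    have hcard : Fintype.card (Fin (Module.finrank k V)) = 2 := by rw [Fintype.card_fin, h2]
    have : Nonempty (Fin (Module.finrank k V)) := by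
      rw [← Fintype.card_pos_iff, hcard]; norm_num
    rw [LinearMap.trace_eq_matrix_trace k b f, Matrix.trace_eq_neg_charpoly_coeff,
      LinearMap.charpoly_toMatrix, hf, hcard]
    simp [coeff_C]
  · rw [LinearMap.det_eq_sign_charpoly_coeff, hf, h2]
    simp [coeff_X, coeff_C]

end Charpoly

section Matrix

open Polynomial

variable {k : Type} [Field k]

/-- `2 × 2` matrices acting on `Fin 2 → k`. -/
noncomputable def matEnd (k : Type) [Field k] :
    Matrix (Fin 2) (Fin 2) k →* Module.End k (Fin 2 → k) :=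
  ((Matrix.toLinAlgEquiv' : Matrix (Fin 2) (Fin 2) k ≃ₐ[k] Module.End k (Fin 2 → k)) :
    Matrix (Fin 2) (Fin 2) k →* Module.End k (Fin 2 → k))

theorem matEnd_apply (m : Matrix (Fin 2) (Fin 2) k) : matEnd k m = Matrix.toLin' m := rfl

/-- A finite-level matrix representation as a `ResidualGaloisRep`. -/
noncomputable def ofMatrix (r : GQ →* Matrix (Fin 2) (Fin 2) k)
    (hr : GaloisFactorsThroughFiniteLevel r) : ResidualGaloisRep k where
  V := Fin 2 → k
  finrank_eq := by simp
  ρ := (matEnd k).comp r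
  factorsThroughFiniteLevel := finiteLevel_comp r (matEnd k) hr

theorem ofMatrix_ρ (r : GQ →* Matrix (Fin 2) (Fin 2) k)
    (hr : GaloisFactorsThroughFiniteLevel r) (σ : GQ) :
    (ofMatrix r hr).ρ σ = Matrix.toLin' (r σ) := rfl

theorem charpoly_ofMatrix (r : GQ →* Matrix (Fin 2) (Fin 2) k)
    (hr : GaloisFactorsThroughFiniteLevel r) (σ : GQ) :
    LinearMap.charpoly ((ofMatrix r hr).ρ σ) = (r σ).charpoly :=
  Matrix.charpoly_toLin' (r σ)

theorem ofMatrix_ρ_eq_one (r : GQ →* Matrix (Fin 2) (Fin 2) k)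
    (hr : GaloisFactorsThroughFiniteLevel r) (σ : GQ) (h : r σ = 1) :
    (ofMatrix r hr).ρ σ = 1 := by
  have h1 : (ofMatrix r hr).ρ σ = (matEnd k) (r σ) := rfl
  rw [h1, h, map_one]
  rfl

theorem ofMatrix_isUnramifiedAt (r : GQ →* Matrix (Fin 2) (Fin 2) k)
    (hr : GaloisFactorsThroughFiniteLevel r) (q : ℕ)
    (h : ∀ A : ValuationSubring (AlgebraicClosure ℚ), A.LiesOverPrime q →
      ∀ σ ∈ A.inertiaSubgroupIn ℚ, r σ = 1) :
    (ofMatrix r hr).IsUnramifiedAt q :=
  fun A hA σ hσ => ofMatrix_ρ_eq_one r hr σ (h A hA σ hσ)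

/-- Extension of scalars of a matrix representation along a ring homomorphism. -/
noncomputable def mapMat {k0 : Type} [Field k0] (f : k0 →+* k)
    (r : GQ →* Matrix (Fin 2) (Fin 2) k0) : GQ →* Matrix (Fin 2) (Fin 2) k :=
  ((RingHom.mapMatrix f : Matrix (Fin 2) (Fin 2) k0 →+* Matrix (Fin 2) (Fin 2) k) :
    Matrix (Fin 2) (Fin 2) k0 →* Matrix (Fin 2) (Fin 2) k).comp r

theorem mapMat_apply {k0 : Type} [Field k0] (f : k0 →+* k)
    (r : GQ →* Matrix (Fin 2) (Fin 2) k0) (σ : GQ) : mapMat f r σ = (r σ).map f := rfl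

theorem charpoly_mapMat {k0 : Type} [Field k0] (f : k0 →+* k)
    (r : GQ →* Matrix (Fin 2) (Fin 2) k0) (σ : GQ) :
    (mapMat f r σ).charpoly = (r σ).charpoly.map f := by
  rw [mapMat_apply, Matrix.charpoly_map]

theorem mapMat_finiteLevel {k0 : Type} [Field k0] (f : k0 →+* k)
    (r : GQ →* Matrix (Fin 2) (Fin 2) k0) (hr : GaloisFactorsThroughFiniteLevel r) :
    GaloisFactorsThroughFiniteLevel (mapMat f r) :=
  finiteLevel_comp r _ hr

/-- **Packaging for S29**: a finite-level `2 × 2` matrix representation over `k0` and a ring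
homomorphism `k0 →+* k` give a `ResidualGaloisRep k` with the mapped characteristic polynomials,
trivial wherever the matrix representation is. -/
theorem exists_residualRep_of_matrix {k0 : Type} [Field k0] (f : k0 →+* k)
    (r : GQ →* Matrix (Fin 2) (Fin 2) k0) (hr : GaloisFactorsThroughFiniteLevel r) :
    ∃ ρ : ResidualGaloisRep k,
      (∀ σ : GQ, LinearMap.charpoly (ρ.ρ σ) = (r σ).charpoly.map f) ∧
      (∀ σ : GQ, r σ = 1 → ρ.ρ σ = 1) := by
  refine ⟨ofMatrix (mapMat f r) (mapMat_finiteLevel f r hr), fun σ => ?_, fun σ h => ?_⟩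
  · rw [charpoly_ofMatrix, charpoly_mapMat]
  · apply ofMatrix_ρ_eq_one
    rw [mapMat_apply, h, Matrix.map_one _ (map_zero f) (map_one f)]

end Matrix

section Elliptic

open WeierstrassCurve WeierstrassCurve.Affine WeierstrassCurve.Affine.Point

/-- The coordinates of a point. -/
def coords {W : WeierstrassCurve Qb} : W.toAffine.Point → Set Qb
  | 0 => ∅
  | .some x y _ => {x, y}

theorem coords_finite {W : WeierstrassCurve Qb} (P : W.toAffine.Point) : (coords P).Finite := by
  cases P with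
  | zero => exact Set.finite_empty
  | some x y h => exact Set.toFinite {x, y}

/-- The Galois representation on the `n`-torsion of an elliptic curve over `ℚ` factors through a
finite level as soon as the `n`-torsion is finite. -/
theorem finiteLevel_galoisRepModuleEnd (W : WeierstrassCurve ℚ) (n : ℕ)
    [Finite (Submodule.torsionBy ℤ (W⁄Qb).Point n)] :
    GaloisFactorsThroughFiniteLevel (galoisRepModuleEnd (K := Qb) ℚ W n) := by
  set S : Set Qb := ⋃ P : Submodule.torsionBy ℤ (W⁄Qb).Point n, coords (P : (W⁄Qb).Point)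
    with hS
  have hSfin : S.Finite := Set.finite_iUnion fun P => coords_finite _
  have : Finite S := hSfin
  have hint : ∀ x ∈ S, IsIntegral ℚ x := fun x _ => Algebra.IsIntegral.isIntegral x
  refine ⟨IntermediateField.adjoin ℚ S, IntermediateField.finiteDimensional_adjoin hint,
    fun σ hσ => ?_⟩
  have hfix : ∀ a ∈ S, σ a = a := fun a ha => hσ a (IntermediateField.subset_adjoin ℚ S ha)
  refine LinearMap.ext fun P => ?_
  rw [galoisRepModuleEnd_apply]
  refine Subtype.ext ?_
  show σ • (P : (W⁄Qb).Point) = P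
  rw [algEquiv_smul_def]
  have hP : coords (P : (W⁄Qb).Point) ⊆ S := Set.subset_iUnion (fun P : Submodule.torsionBy ℤ (W⁄Qb).Point n => coords (P : (W⁄Qb).Point)) P
  generalize (P : (W⁄Qb).Point) = Q at hP
  cases Q with
  | zero => rfl
  | some x y h =>
    rw [Point.map_some]
    have hx : σ x = x := hfix x (hP (by simp [coords]))
    have hy : σ y = y := hfix y (hP (by simp [coords]))
    simp only [Point.some.injEq]
    exact ⟨hx, hy⟩

end Elliptic

end Fermat.Agent.GJ.Pkg
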