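import Fermat.Prelude.Def_ModularCurve_HeckeModule
import Fermat.Prelude.Def_HeckeGalois_EichlerShimura
import Fermat.Agent.GJ.S37Pack

set_option autoImplicit false
open ModularCurve

namespace Fermat.Agent.GJ.S37Dry

theorem result_of (N p : ℕ) [NeZero N] (_hcomm : ModularCurve.HeckeOperatorsCommuteBar N) :
    letI := ModularCurve.heckeModuleBar N
    ∀ (_ : SMulCommClass (AlgebraicClosure ℚ ≃ₐ[ℚ] AlgebraicClosure ℚ) ModularCurve.HeckeAlg
        (ModularCurve.JZero N)),
      (∀ ℓ : ℕ, (hℓ : ℓ.Prime) → ¬ ℓ ∣ N * p →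
        ∀ A : ValuationSubring (AlgebraicClosure ℚ), A.LiesOverPrime ℓ →
          ∃ J1 : Submodule HeckeAlg (ModularCurve.JZero N),
            S37Pack.IsReductionKernel (K := ℚ) p (ModularCurve.JZero N) A ℓ hℓ J1) →
      ModularCurve.SpecializationExists (K := ℚ) (L := AlgebraicClosure ℚ) N p
        (ModularCurve.JZero N) := by
  intro _hs h
  let _ := ModularCurve.heckeModuleBar N
  exact S37Pack.specializationExists_of_kernels N p (ModularCurve.JZero N) h

end Fermat.Agent.GJ.S37Dry
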